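import Fermat.Prelude.Def_ModularForm_HeckeOperator
import Fermat.Prelude.Thm_CongruenceSubgroup_one_mem_strictPeriods_Gamma0
import Fermat.Prelude.Sol.S_ModularFormClass_qCoeff_heckeT
import Fermat.Agent.S23.Defs

section MergeWrap_S23_ThetaAux -- from S23/ThetaAux.lean

/-!
# S23, step C1 (auxiliary): matrices

Decomposition `diag(N,1) * g = γ' * [[e, b], [0, d]]` for `g ∈ SL(2,ℤ)`.
-/

set_option autoImplicit false

namespace Fermat.Agent.S23.Theta

open UpperHalfPlane ModularForm MatrixGroups Filter Topology Matrix.SpecialLinearGroup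

theorem mapGL_apply' (g : SL(2, ℤ)) (i j : Fin 2) :
    (mapGL ℝ g : GL (Fin 2) ℝ) i j = ((g i j : ℤ) : ℝ) := by
  simp

theorem sl2_det_eq (g : SL(2, ℤ)) : g 0 0 * g 1 1 - g 0 1 * g 1 0 = 1 := by
  have h := g.det_coe
  rwa [Matrix.det_fin_two] at h

/-- `diag(N, 1) * g = g' * diag(N, 1)` for `g ∈ Γ₀(N)`. -/
theorem heckeDiagMatrix_mul_comm {N : ℕ} (hN : N ≠ 0) (g : SL(2, ℤ)) (e : ℤ)
    (he : g 1 0 = N * e) :
    ∃ g' : SL(2, ℤ), heckeDiagMatrix N * mapGL ℝ g = mapGL ℝ g' * heckeDiagMatrix N := by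
  have hdet := sl2_det_eq g
  refine ⟨⟨!![g 0 0, N * g 0 1; e, g 1 1], ?_⟩, ?_⟩
  · rw [Matrix.det_fin_two_of]
    linear_combination hdet + (g 0 1) * he
  · ext i j
    fin_cases i <;> fin_cases j <;>
      simp [hN, Matrix.mul_apply, Fin.sum_univ_two]
    all_goals first
      | (have := congrArg (Int.cast : ℤ → ℝ) he; push_cast at this ⊢; linear_combination this)
      | (have := congrArg (Int.cast : ℤ → ℝ) he; push_cast at this ⊢; linear_combination -this)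
      | ring1

/-- The key decomposition: for `g ∈ SL(2,ℤ)` and `N ≠ 0`, we can write
`diag(N,1) * g = γ' * [[e, b], [0, d]]` with `γ' ∈ SL(2,ℤ)`, `e * d = N`, and `d = 1` iff
`N ∣ g 1 0`. -/
theorem exists_decomp {N : ℕ} (hN : N ≠ 0) (g : SL(2, ℤ)) :
    ∃ (γ' : SL(2, ℤ)) (e d : ℕ) (b : ℤ) (hed : (e : ℝ) * (d : ℝ) ≠ 0), e * d = N ∧
      (d = 1 ↔ (N : ℤ) ∣ g 1 0) ∧
      heckeDiagMatrix N * mapGL ℝ g = mapGL ℝ γ' * upperTriangularGL (e : ℝ) (b : ℝ) (d : ℝ) hed := by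
  have hdet := sl2_det_eq g
  set a₀ := g 0 0 with ha₀
  set b₀ := g 0 1 with hb₀
  set c₀ := g 1 0 with hc₀
  set d₀ := g 1 1 with hd₀
  -- e = gcd(N, c₀)
  set e : ℕ := Int.gcd (N : ℤ) c₀ with he
  have he_pos : 0 < e := Int.gcd_pos_of_ne_zero_left _ (by exact_mod_cast hN)
  have heN : (e : ℤ) ∣ (N : ℤ) := Int.gcd_dvd_left _ _
  have hec : (e : ℤ) ∣ c₀ := Int.gcd_dvd_right _ _
  obtain ⟨dz, hdz⟩ := heN
  obtain ⟨z, hz⟩ := hec
  have hdz_pos : 0 < dz := by
    have hNpos : (0 : ℤ) < N := by exact_mod_cast Nat.pos_of_ne_zero hN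
    have hepos : (0 : ℤ) < e := by exact_mod_cast he_pos
    rw [hdz] at hNpos
    exact (mul_pos_iff_of_pos_left hepos).mp hNpos
  obtain ⟨d, hd⟩ : ∃ d : ℕ, (d : ℤ) = dz := ⟨dz.toNat, Int.toNat_of_nonneg hdz_pos.le⟩
  have hd_pos : 0 < d := by
    have : (0 : ℤ) < d := by rw [hd]; exact hdz_pos
    exact_mod_cast this
  have hedN : e * d = N := by
    have : ((e * d : ℕ) : ℤ) = N := by push_cast; rw [hd, ← hdz]
    exact_mod_cast this
  -- gcd(d, z) = 1
  have hcop_dz : IsCoprime (d : ℤ) z := by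
    rw [Int.isCoprime_iff_gcd_eq_one]
    have h1 : Int.gcd ((e : ℤ) * d) ((e : ℤ) * z) = e := by
      rw [hd, ← hdz, ← hz]
    rw [Int.gcd_mul_left] at h1
    have h2 : (e : ℤ).natAbs = e := Int.natAbs_natCast e
    rw [h2] at h1
    have : e * Int.gcd (d : ℤ) z = e * 1 := by rw [h1, mul_one]
    exact Nat.eq_of_mul_eq_mul_left he_pos this
  have hcop_az : IsCoprime a₀ z := by
    have h1 : IsCoprime a₀ c₀ := ⟨d₀, -b₀, by linear_combination hdet⟩
    rw [hz] at h1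
    exact h1.of_mul_right_right
  have hcop : IsCoprime ((d : ℤ) * a₀) z := hcop_dz.mul_left hcop_az
  obtain ⟨u, v, huv⟩ := hcop
  -- huv : u * (d * a₀) + v * z = 1
  have hed : (e : ℝ) * (d : ℝ) ≠ 0 := by
    have : (0 : ℝ) < (e : ℝ) * (d : ℝ) := by positivity
    exact this.ne'
  refine ⟨⟨!![(d : ℤ) * a₀, -v; z, u], ?_⟩, e, d, u * N * b₀ + v * d₀, hed, hedN, ?_, ?_⟩
  · rw [Matrix.det_fin_two_of]
    linear_combination huv
  · constructor
    · intro h1
      subst h1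
      have : (e : ℤ) = N := by
        have := hedN
        simp at this
        exact_mod_cast this
      rw [← this]
      exact ⟨z, hz⟩
    · intro hNc
      have : (N : ℤ) ∣ Int.gcd (N : ℤ) c₀ := Int.dvd_coe_gcd (dvd_refl _) hNc
      have h2 : (N : ℤ) ∣ (e : ℤ) := this
      have h3 : N ∣ e := by exact_mod_cast h2
      have h4 : e ∣ N := ⟨d, hedN.symm⟩
      have h5 : e = N := Nat.dvd_antisymm h4 h3
      rw [h5] at hedN
      have : N * d = N * 1 := by rw [hedN, mul_one]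
      exact Nat.eq_of_mul_eq_mul_left (Nat.pos_of_ne_zero hN) this
  · have hNR : (N : ℝ) = (e : ℝ) * (d : ℝ) := by exact_mod_cast hedN.symm
    have hzR : (c₀ : ℝ) = (e : ℝ) * (z : ℝ) := by exact_mod_cast hz
    have huvR : (u : ℝ) * ((d : ℝ) * (a₀ : ℝ)) + (v : ℝ) * (z : ℝ) = 1 := by exact_mod_cast huv
    have hdetR : (a₀ : ℝ) * (d₀ : ℝ) - (b₀ : ℝ) * (c₀ : ℝ) = 1 := by exact_mod_cast hdet
    ext i j
    fin_cases i <;> fin_cases j <;>
      simp [hN, Matrix.mul_apply, Fin.sum_univ_two, ← ha₀, ← hb₀, ← hc₀, ← hd₀]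
    · rw [hNR]; ring
    · linear_combination (-(N : ℝ) * b₀) * huvR - ((d : ℝ) * v) * hdetR
        + ((b₀ : ℝ) * v * z) * hNR - ((d : ℝ) * v * b₀) * hzR
    · rw [hzR]; ring
    · linear_combination (-(d₀ : ℝ)) * huvR + ((u : ℝ) * d) * hdetR
        + ((u : ℝ) * b₀ * d) * hzR - ((u : ℝ) * b₀ * z) * hNR

end Fermat.Agent.S23.Theta
end MergeWrap_S23_ThetaAux

section MergeWrap_S23_ThetaDef -- from S23/ThetaDef.lean

/-!
# S23, step C1: the form `θ(τ) = E₄(N τ)` on `Γ₀(N)`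

* `Fermat.Agent.S23.Theta.theta N : ModularForm (G0 N) 4`
* `theta_apply : theta N τ = E₄ (heckeDiagMatrix N • τ)`
* `theta_coe : ⇑(theta N) = ((N:ℂ)^3)⁻¹ • (⇑E₄ ∣[4] heckeDiagMatrix N)`
* `qExpansion_theta_mem_ZSer`, `tendsto_theta`
-/

set_option autoImplicit false

namespace Fermat.Agent.S23.Theta

open UpperHalfPlane ModularForm MatrixGroups Filter Topology Matrix.SpecialLinearGroup
open ConjAct Pointwise

/-- `Γ₀(N) ⊆ α⁻¹ SL₂(ℤ) α` for `α = diag(N, 1)`. -/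
theorem G0_le_conj (N : ℕ) [NeZero N] :
    G0 N ≤ toConjAct (heckeDiagMatrix N)⁻¹ • (𝒮ℒ : Subgroup (GL (Fin 2) ℝ)) := by
  rintro γ ⟨g, hg, rfl⟩
  rw [map_inv, Subgroup.mem_inv_pointwise_smul_iff, toConjAct_smul]
  have hdvd : (N : ℤ) ∣ g 1 0 := by
    rw [SetLike.mem_coe, CongruenceSubgroup.Gamma0_mem] at hg
    exact (ZMod.intCast_zmod_eq_zero_iff_dvd _ N).mp hg
  obtain ⟨e, he⟩ := hdvd
  obtain ⟨g', hg'⟩ := heckeDiagMatrix_mul_comm (NeZero.ne N) g e he
  rw [hg', mul_inv_cancel_right]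
  exact ⟨g', rfl⟩

/-- `E₄ ∣[4] diag(N, 1)` as a modular form on `Γ₀(N)`; its value at `τ` is `N³ E₄(N τ)`. -/
noncomputable def thetaAux (N : ℕ) [NeZero N] : ModularForm (G0 N) 4 where
  toFun := ⇑E₄ ∣[(4 : ℤ)] heckeDiagMatrix N
  slash_action_eq' γ hγ :=
    (ModularForm.translate E₄ (heckeDiagMatrix N)).slash_action_eq' γ (G0_le_conj N hγ)
  holo' := (ModularForm.translate E₄ (heckeDiagMatrix N)).holo'
  bdd_at_cusps' hc :=
    (ModularForm.translate E₄ (heckeDiagMatrix N)).bdd_at_cusps' (hc.mono (G0_le_conj N))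

/-- The modular form `θ(τ) = E₄(N τ)` of weight `4` on `Γ₀(N)`. -/
noncomputable def theta (N : ℕ) [NeZero N] : ModularForm (G0 N) 4 :=
  (((N : ℂ) ^ 3)⁻¹ : ℂ) • thetaAux N

theorem theta_coe (N : ℕ) [NeZero N] :
    ⇑(theta N) = (((N : ℂ) ^ 3)⁻¹ : ℂ) • (⇑E₄ ∣[(4 : ℤ)] heckeDiagMatrix N) := rfl

theorem theta_apply (N : ℕ) [NeZero N] (τ : ℍ) :
    theta N τ = E₄ (heckeDiagMatrix N • τ) := by
  have hN : (N : ℂ) ≠ 0 := by exact_mod_cast NeZero.ne N
  rw [theta_coe, Pi.smul_apply, slash_heckeDiagMatrix_apply 4 (NeZero.ne N), smul_eq_mul]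
  rw [show ((4 : ℤ) - 1) = ((3 : ℕ) : ℤ) by norm_num, zpow_natCast, ← mul_assoc,
    inv_mul_cancel₀ (pow_ne_zero 3 hN), one_mul]


/-- The `q`-expansion coefficients of `E₄` are integers. -/
theorem exists_int_coeff_E4 (n : ℕ) : ∃ z : ℤ, (qExpansion 1 E₄).coeff n = (z : ℂ) := by
  have hb : bernoulli 4 = -1 / 30 := by
    rw [bernoulli_eq_bernoulli'_of_ne_one (by norm_num), bernoulli'_four]
  have h := EisensteinSeries.E_qExpansion_coeff (k := 4) (by norm_num) ⟨2, rfl⟩ n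
  by_cases hn : n = 0
  · exact ⟨1, by rw [h, if_pos hn]; simp⟩
  · refine ⟨240 * (ArithmeticFunction.sigma 3 n : ℤ), ?_⟩
    rw [h, if_neg hn, hb]
    push_cast
    norm_num

theorem hasSum_theta (N : ℕ) [NeZero N] (τ : ℍ) :
    HasSum (fun n : ℕ => (if N ∣ n then (qExpansion 1 E₄).coeff (n / N) else 0) •
      Function.Periodic.qParam 1 τ ^ n) (theta N τ) := by
  have hper : Function.Periodic (⇑E₄ ∘ ofComplex) 1 :=
    SlashInvariantFormClass.periodic_comp_ofComplex E₄ _root_.one_mem_strictPeriods_SL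
  have h := P2MW.S_ModularFormClass_qCoeff_heckeT.M4cP1W2.hasSum_diag (p := N) (NeZero.ne N)
    hper (ModularFormClass.holo E₄) (ModularFormClass.bdd_at_infty E₄) 1 τ
  rw [theta_apply]
  convert h using 1
  · funext n
    split_ifs with hn
    · simp [ModularFormClass.qCoeff]
    · simp
  · simp

theorem qExpansion_theta_coeff (N : ℕ) [NeZero N] (n : ℕ) :
    (qExpansion 1 (theta N)).coeff n =
      if N ∣ n then (qExpansion 1 E₄).coeff (n / N) else 0 :=
  (ModularFormClass.qExpansion_coeff_unique one_pos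
    (CongruenceSubgroup.one_mem_strictPeriods_Gamma0 N) (f := theta N) (hasSum_theta N) n).symm

theorem qExpansion_theta_mem_ZSer (N : ℕ) [NeZero N] : qExpansion 1 (theta N) ∈ ZSer := by
  choose z hz using exists_int_coeff_E4
  refine ⟨PowerSeries.mk fun n => if N ∣ n then z (n / N) else 0, ?_⟩
  ext n
  rw [PowerSeries.coeff_map, PowerSeries.coeff_mk, qExpansion_theta_coeff]
  split_ifs with hn
  · simp [hz]
  · simp

/-- A modular form with period `1` tends to its constant `q`-coefficient at `i∞`. -/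
theorem tendsto_atImInfty_coeff_zero {Γ : Subgroup (GL (Fin 2) ℝ)} {k : ℤ}
    (f : ModularForm Γ k) (hΓ : (1 : ℝ) ∈ Γ.strictPeriods) :
    Tendsto f atImInfty (𝓝 ((qExpansion 1 f).coeff 0)) := by
  have : Fact (IsCusp OnePoint.infty Γ) := ⟨Γ.isCusp_of_mem_strictPeriods one_pos hΓ⟩
  have hper : Function.Periodic (⇑f ∘ ofComplex) 1 :=
    SlashInvariantFormClass.periodic_comp_ofComplex f hΓ
  have han : AnalyticAt ℂ (cuspFunction 1 f) 0 :=
    analyticAt_cuspFunction_zero one_pos hper (ModularFormClass.holo f)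
      (ModularFormClass.bdd_at_infty f)
  have hcomp : (cuspFunction 1 f ∘ fun τ : ℍ => Function.Periodic.qParam 1 τ : ℍ → ℂ) = f := by
    funext τ
    simpa using eq_cuspFunction τ one_ne_zero hper
  have h1 := han.continuousAt.tendsto.comp (qParam_tendsto_atImInfty one_pos)
  rw [hcomp] at h1
  have h0 : (qExpansion 1 f).coeff 0 = cuspFunction 1 f 0 := by
    simp [qExpansion_coeff]
  rw [h0]
  exact h1

theorem tendsto_E4 : Tendsto E₄ atImInfty (𝓝 1) := by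
  have h := tendsto_atImInfty_coeff_zero E₄ _root_.one_mem_strictPeriods_SL
  rwa [EisensteinSeries.E_qExpansion_coeff_zero (by norm_num) ⟨2, rfl⟩] at h

theorem tendsto_theta (N : ℕ) [NeZero N] : Tendsto (theta N) atImInfty (𝓝 1) := by
  have h := tendsto_atImInfty_coeff_zero (theta N)
    (CongruenceSubgroup.one_mem_strictPeriods_Gamma0 N)
  rw [qExpansion_theta_coeff, if_pos (dvd_zero N), Nat.zero_div,
    EisensteinSeries.E_qExpansion_coeff_zero (by norm_num) ⟨2, rfl⟩] at h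
  exact h

end Fermat.Agent.S23.Theta
end MergeWrap_S23_ThetaDef
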